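import Mathlib
import Fermat.Agent.LT.H556.A0
import Fermat.Agent.LT.T1.Spec
import Fermat.Agent.LT.T1.H793.AdeleProj
import Fermat.Agent.LT.T1.H793.Height
import Fermat.Agent.LT.T1.H919.K0Compact
import Fermat.Agent.LT.T1.H919.SiegelTools

/-!
# Row LT, tower T1, leaf T1.17 (helper54): tools for the volume of Siegel sets

OFF-MAIN.  On the libraries of helper793 (`AdeleProj`, `Height`) and helper919 (`K0Compact`,
`SiegelTools`), byte-identical copies.

* `pMap54 z y u k = scalarG919 z * up919 y u * k` : the parametrisation `Z(𝔸) × A × N × K⁰ → G`;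
* `unipCoord54` : the invariant `(M Mᴴ)₀₁ / (M Mᴴ)₁₁` of a complex matrix, invariant under right
  multiplication by unitary matrices, which reads off the unipotent coordinate at an infinite
  place: `infCoord_pMap54`;
* `tAdl54 θ` : the adele `θ` at every infinite place, `0` at the finite places.
-/

set_option autoImplicit false

open IsDedekindDomain NumberField MeasureTheory
open scoped MatrixGroups

noncomputable section

namespace Fermat.Agent.LT.T1.H54

open Fermat.Agent.LT.H556.A0 Fermat.Agent.LT.T1 Fermat.Agent.LT.T1.H793 Fermat.Agent.LT.T1.H919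

variable {K : Type} [Field K] [NumberField K]

/-! ## The parametrisation -/

/-- `scalar(z) · [[y, u], [0, 1]] · k`. -/
def pMap54 (z y : (Adl K)ˣ) (u : Adl K) (k : G K) : G K :=
  scalarG919 z * up919 y u * k

lemma scalarG54_inv (z : (Adl K)ˣ) : (scalarG919 z : G K)⁻¹ = scalarG919 z⁻¹ := by
  unfold scalarG919
  exact (map_inv _ _).symm

lemma continuous_scalarG54 : Continuous (fun z : (Adl K)ˣ => (scalarG919 z : G K)) := by
  rw [Units.continuous_iff]
  constructor
  · have : (Units.val ∘ fun z : (Adl K)ˣ => (scalarG919 z : G K))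
        = fun z : (Adl K)ˣ => Matrix.diagonal (fun _ : Fin 2 => ((z : (Adl K)ˣ) : Adl K)) := by
      funext z; exact scalarG919_val z
    rw [this]
    refine continuous_matrix (fun i j => ?_)
    fin_cases i <;> fin_cases j
    · simpa using Units.continuous_val
    · simpa using (continuous_const : Continuous fun _ : (Adl K)ˣ => (0 : Adl K))
    · simpa using (continuous_const : Continuous fun _ : (Adl K)ˣ => (0 : Adl K))
    · simpa using Units.continuous_val
  · have : (fun z : (Adl K)ˣ => (((scalarG919 z : G K)⁻¹ : G K) : Matrix (Fin 2) (Fin 2) (Adl K)))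
        = fun z : (Adl K)ˣ =>
            Matrix.diagonal (fun _ : Fin 2 => ((z⁻¹ : (Adl K)ˣ) : Adl K)) := by
      funext z
      rw [scalarG54_inv]
      exact scalarG919_val z⁻¹
    rw [this]
    refine continuous_matrix (fun i j => ?_)
    fin_cases i <;> fin_cases j
    · simpa using Units.continuous_coe_inv
    · simpa using (continuous_const : Continuous fun _ : (Adl K)ˣ => (0 : Adl K))
    · simpa using (continuous_const : Continuous fun _ : (Adl K)ˣ => (0 : Adl K))
    · simpa using Units.continuous_coe_inv

lemma continuous_pMap54 :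
    Continuous (fun p : (Adl K)ˣ × (Adl K)ˣ × Adl K × G K =>
      pMap54 p.1 p.2.1 p.2.2.1 p.2.2.2) := by
  unfold pMap54
  have h1 : Continuous (fun p : (Adl K)ˣ × (Adl K)ˣ × Adl K × G K => (scalarG919 p.1 : G K)) :=
    continuous_scalarG54.comp continuous_fst
  have h2 : Continuous (fun p : (Adl K)ˣ × (Adl K)ˣ × Adl K × G K =>
      (up919 p.2.1 p.2.2.1 : G K)) :=
    continuous_up919.comp ((continuous_fst.comp continuous_snd).prodMk
      (continuous_fst.comp (continuous_snd.comp continuous_snd)))
  have h3 : Continuous (fun p : (Adl K)ˣ × (Adl K)ˣ × Adl K × G K => p.2.2.2) :=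
    continuous_snd.comp (continuous_snd.comp continuous_snd)
  exact (h1.mul h2).mul h3

/-- Left translation by the unipotent `n(t)` shifts the unipotent coordinate. -/
lemma up_one_mul_pMap54 (t : Adl K) (z y : (Adl K)ˣ) (u : Adl K) (k : G K) :
    up919 (1 : (Adl K)ˣ) t * pMap54 z y u k = pMap54 z y (u + t) k := by
  unfold pMap54
  rw [← mul_assoc, ← mul_assoc, ← scalarG919_comm, mul_assoc (scalarG919 z), up919_mul]
  simp

/-! ## The unipotent coordinate at an infinite place -/

/-- The invariant `(M Mᴴ)₀₁ / (M Mᴴ)₁₁`. -/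
def unipCoord54 (M : Matrix (Fin 2) (Fin 2) ℂ) : ℂ :=
  (M * M.conjTranspose) 0 1 / (M * M.conjTranspose) 1 1

lemma unipCoord54_mul_unitary (M U : Matrix (Fin 2) (Fin 2) ℂ) (hU : U * U.conjTranspose = 1) :
    unipCoord54 (M * U) = unipCoord54 M := by
  unfold unipCoord54
  have : M * U * (M * U).conjTranspose = M * M.conjTranspose := by
    rw [Matrix.conjTranspose_mul, Matrix.mul_assoc, ← Matrix.mul_assoc U, hU, Matrix.one_mul]
  rw [this]

lemma infComp_scalar_up54 (w : InfinitePlace K) (z y : (Adl K)ˣ) (u : Adl K) :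
    infComp w (scalarG919 z * up919 y u) =
      !![InfinitePlace.Completion.extensionEmbedding w (((z : Adl K) * (y : Adl K)).1 w),
         InfinitePlace.Completion.extensionEmbedding w (((z : Adl K) * u).1 w);
         0, InfinitePlace.Completion.extensionEmbedding w ((z : Adl K).1 w)] := by
  have hm : ((scalarG919 z * up919 y u : G K) : Matrix (Fin 2) (Fin 2) (Adl K))
      = !![(z : Adl K) * (y : Adl K), (z : Adl K) * u; 0, (z : Adl K)] := by
    rw [Units.val_mul, scalarG919_val, up919_val]
    ext i j
    fin_cases i <;> fin_cases j <;> simp [Matrix.diagonal_mul]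
  ext i j
  unfold infComp
  rw [hm]
  fin_cases i <;> fin_cases j
  · rfl
  · rfl
  · show InfinitePlace.Completion.extensionEmbedding w ((0 : Adl K).1 w) = 0
    exact map_zero _
  · rfl

/-- The unipotent coordinate of `pMap54 z y u k` at the infinite place `w` is `u_w`. -/
lemma unipCoord_pMap54 (w : InfinitePlace K) (z y : (Adl K)ˣ) (u : Adl K) (k : G K)
    (hk : IsStdCompact K k) :
    unipCoord54 (infComp w (pMap54 z y u k)) =
      InfinitePlace.Completion.extensionEmbedding w (u.1 w) := by
  unfold pMap54
  rw [infComp_mul793, unipCoord54_mul_unitary _ _ (hk.2 w).1, infComp_scalar_up54]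
  unfold unipCoord54
  set ζ : ℂ := InfinitePlace.Completion.extensionEmbedding w ((z : Adl K).1 w) with hζ
  have hζ0 : ζ ≠ 0 := by
    rw [hζ]
    intro h
    have hz : (z : Adl K).1 w ≠ 0 := by
      intro h0
      have h1 : ((z : Adl K) * ((z⁻¹ : (Adl K)ˣ) : Adl K)).1 w = (1 : Adl K).1 w := by
        rw [← Units.val_mul, mul_inv_cancel, Units.val_one]
      have h2 : ((z : Adl K) * ((z⁻¹ : (Adl K)ˣ) : Adl K)).1 w
          = (z : Adl K).1 w * (((z⁻¹ : (Adl K)ˣ) : Adl K)).1 w := rfl
      rw [h2, h0, zero_mul] at h1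
      exact zero_ne_one h1
    exact hz ((map_eq_zero _).1 h)
  have hzu : InfinitePlace.Completion.extensionEmbedding w (((z : Adl K) * u).1 w)
      = ζ * InfinitePlace.Completion.extensionEmbedding w (u.1 w) := by
    have : ((z : Adl K) * u).1 w = (z : Adl K).1 w * u.1 w := rfl
    rw [this, map_mul]
  rw [hzu]
  simp only [Matrix.mul_apply, Fin.sum_univ_two, Matrix.conjTranspose_apply, Matrix.of_apply,
    Matrix.cons_val', Matrix.cons_val_zero, Matrix.cons_val_one, Matrix.cons_val_fin_one,
    star_zero, mul_zero, zero_add]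
  have hs : star ζ ≠ 0 := star_ne_zero.mpr hζ0
  field_simp

/-- **Disjointness**: the infinite components of the unipotent coordinate are determined by the
group element. -/
lemma inf_coord_eq_of_pMap_eq54 {z y z' y' : (Adl K)ˣ} {u u' : Adl K} {k k' : G K}
    (hk : IsStdCompact K k) (hk' : IsStdCompact K k')
    (h : pMap54 z y u k = pMap54 z' y' u' k') (w : InfinitePlace K) : u.1 w = u'.1 w := by
  have h1 := unipCoord_pMap54 w z y u k hk
  have h2 := unipCoord_pMap54 w z' y' u' k' hk'
  rw [h, h2] at h1
  exact ((InfinitePlace.Completion.extensionEmbedding w).injective h1).symm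

/-! ## The adele `θ` at infinity, `0` at the finite places -/

/-- `θ` at every infinite place, `0` at every finite place. -/
def tAdl54 (K : Type) [Field K] [NumberField K] (θ : ℝ) : Adl K :=
  ((fun w => realTo919 w θ), 0)

lemma tAdl54_inf (θ : ℝ) (w : InfinitePlace K) : (tAdl54 K θ).1 w = realTo919 w θ := rfl

lemma continuous_tAdl54 : Continuous (tAdl54 K) :=
  Continuous.prodMk (continuous_pi fun w => continuous_realTo919 w) continuous_const

end Fermat.Agent.LT.T1.H54

end
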