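import Mathlib
import Fermat.Agent.LT.T1.H54.SVTools

/-!
# Row LT, tower T1, leaf T1.17 (helper54): the measure of a Siegel set, by dyadic tiling

OFF-MAIN.  No Iwasawa integration formula, no Fubini: only left invariance of the Haar measure,
finiteness on compact sets and the disjointness lemma `inf_coord_eq_of_pMap_eq54`.

`siegelSet54 e Zc Yc D = ⋃ j, e j · P(Zc, Yc, D · ray(4^{-j}), K⁰)` is Borel of finite Haar measure,
for ANY sequence `e j` of group elements and compact `Zc, Yc ⊂ 𝔸ˣ`, `D ⊂ 𝔸`.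
-/

set_option autoImplicit false

open IsDedekindDomain NumberField MeasureTheory
open scoped MatrixGroups ENNReal

noncomputable section

namespace Fermat.Agent.LT.T1.H54

open Fermat.Agent.LT.H556.A0 Fermat.Agent.LT.T1 Fermat.Agent.LT.T1.H793 Fermat.Agent.LT.T1.H919

variable {K : Type} [Field K] [NumberField K]

/-- The piece `P(Zc, Yc, D · ray(4^{-j}), K⁰)`. -/
def piece54 (Zc Yc : Set (Adl K)ˣ) (D : Set (Adl K)) (j : ℕ) : Set (G K) :=
  (fun p : (Adl K)ˣ × (Adl K)ˣ × Adl K × G K => pMap54 p.1 p.2.1 p.2.2.1 p.2.2.2) ''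
    (Zc ×ˢ Yc ×ˢ ((fun d : Adl K => d * rayAdl919 K (((4 : ℝ) ^ j)⁻¹)) '' D) ×ˢ
      {k : G K | IsStdCompact K k})

/-- The Siegel set `⋃ j, e j · piece j`. -/
def siegelSet54 (e : ℕ → G K) (Zc Yc : Set (Adl K)ˣ) (D : Set (Adl K)) : Set (G K) :=
  ⋃ j : ℕ, (fun h : G K => e j * h) '' piece54 Zc Yc D j

lemma isCompact_piece54 {Zc Yc : Set (Adl K)ˣ} {D : Set (Adl K)} (hZ : IsCompact Zc)
    (hY : IsCompact Yc) (hD : IsCompact D) (j : ℕ) : IsCompact (piece54 Zc Yc D j) := by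
  unfold piece54
  refine IsCompact.image ?_ continuous_pMap54
  refine hZ.prod (hY.prod (IsCompact.prod ?_ isCompact_stdCompact919))
  exact hD.image (continuous_id.mul continuous_const)

/-- A bound for the infinite components on a compact set of adeles. -/
lemma exists_bound54 {D : Set (Adl K)} (hD : IsCompact D) :
    ∃ R : ℝ, 0 < R ∧ ∀ d ∈ D, ∀ w : InfinitePlace K, ‖d.1 w‖ ≤ R := by
  have hc : Continuous (fun d : Adl K => ∑ w : InfinitePlace K, ‖d.1 w‖) :=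
    continuous_finsetSum _ (fun w _ => (continuous_projInf919 w).norm)
  obtain ⟨C, hC⟩ := hD.exists_bound_of_continuousOn hc.continuousOn
  refine ⟨max C 1, lt_of_lt_of_le one_pos (le_max_right _ _), fun d hd w => ?_⟩
  have h1 : ‖d.1 w‖ ≤ ∑ w' : InfinitePlace K, ‖d.1 w'‖ :=
    Finset.single_le_sum (f := fun w' : InfinitePlace K => ‖d.1 w'‖)
      (fun _ _ => norm_nonneg _) (Finset.mem_univ w)
  have h2 := hC d hd
  rw [Real.norm_eq_abs] at h2
  exact le_trans h1 (le_trans (le_trans (le_abs_self _) h2) (le_max_left _ _))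

lemma tAdl54_sub (θ θ' : ℝ) (w : InfinitePlace K) :
    (tAdl54 K θ).1 w - (tAdl54 K θ').1 w = realTo919 w (θ - θ') := by
  rw [tAdl54_inf, tAdl54_inf, map_sub]

/-- THE TILING ESTIMATE. -/
theorem measure_piece_le54 [MeasurableSpace (G K)] [BorelSpace (G K)]
    (μ : Measure (G K)) [μ.IsHaarMeasure] [T2Space (G K)]
    {Zc Yc : Set (Adl K)ˣ} {D : Set (Adl K)} (hZ : IsCompact Zc) (hY : IsCompact Yc)
    (hD : IsCompact D) :
    ∃ M : ℝ≥0∞, M < ⊤ ∧ ∀ j : ℕ, μ (piece54 Zc Yc D j) ≤ ((4 : ℝ≥0∞)⁻¹) ^ j * M := by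
  obtain ⟨R, hR, hRD⟩ := exists_bound54 hD
  -- the big compact set
  set D' : Set (Adl K) :=
    (fun p : Adl K × ℝ × ℝ => p.1 * rayAdl919 K p.2.1 + tAdl54 K p.2.2) ''
      (D ×ˢ Set.Icc (0 : ℝ) 1 ×ˢ Set.Icc (0 : ℝ) (3 * R)) with hD'
  have hD'c : IsCompact D' := by
    refine (hD.prod (isCompact_Icc.prod isCompact_Icc)).image ?_
    exact (continuous_fst.mul (continuous_rayAdl919.comp (continuous_fst.comp continuous_snd))).add
      (continuous_tAdl54.comp (continuous_snd.comp continuous_snd))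
  set Y' : Set (G K) :=
    (fun p : (Adl K)ˣ × (Adl K)ˣ × Adl K × G K => pMap54 p.1 p.2.1 p.2.2.1 p.2.2.2) ''
      (Zc ×ˢ Yc ×ˢ D' ×ˢ {k : G K | IsStdCompact K k}) with hY'
  have hY'c : IsCompact Y' :=
    (hZ.prod (hY.prod (hD'c.prod isCompact_stdCompact919))).image continuous_pMap54
  refine ⟨μ Y', hY'c.measure_lt_top, fun j => ?_⟩
  -- the translates
  have h4 : (0 : ℝ) < (4 : ℝ) ^ j := by positivity
  set θ : ℕ → ℝ := fun i => 3 * R * i / (4 : ℝ) ^ j with hθ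
  set T : ℕ → Set (G K) := fun i =>
    (fun h : G K => up919 (1 : (Adl K)ˣ) (tAdl54 K (θ i)) * h) '' piece54 Zc Yc D j with hT
  have hTc : ∀ i, IsCompact (T i) := fun i =>
    (isCompact_piece54 hZ hY hD j).image (continuous_const.mul continuous_id)
  have hTm : ∀ i, μ (T i) = μ (piece54 Zc Yc D j) := by
    intro i
    rw [hT]
    simp only
    rw [Set.image_mul_left, measure_preimage_mul]
  have hTsub : ∀ i ∈ Finset.range (4 ^ j), T i ⊆ Y' := by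
    intro i hi
    rintro _ ⟨_, ⟨⟨z, y, u, k⟩, ⟨hz, hy, ⟨d, hd, rfl⟩, hk⟩, rfl⟩, rfl⟩
    simp only
    rw [up_one_mul_pMap54]
    refine ⟨(z, y, d * rayAdl919 K (((4 : ℝ) ^ j)⁻¹) + tAdl54 K (θ i), k),
      ⟨hz, hy, ⟨(d, ((4 : ℝ) ^ j)⁻¹, θ i), ⟨hd, ⟨?_, ?_⟩, ⟨?_, ?_⟩⟩, rfl⟩, hk⟩, rfl⟩
    · exact inv_nonneg.2 h4.le
    · exact inv_le_one_of_one_le₀ (one_le_pow₀ (by norm_num))
    · rw [hθ]; positivity
    · rw [hθ]
      simp only
      rw [div_le_iff₀ h4]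
      have hi' : (i : ℝ) ≤ (4 : ℝ) ^ j := by
        have := (Finset.mem_range.1 hi).le
        exact_mod_cast this
      nlinarith
  have hTdisj : ((Finset.range (4 ^ j) : Finset ℕ) : Set ℕ).PairwiseDisjoint T := by
    intro i _ i' _ hii'
    rw [Function.onFun, Set.disjoint_left]
    rintro _ ⟨_, ⟨⟨z, y, u, k⟩, ⟨-, -, ⟨d, hd, rfl⟩, hk⟩, rfl⟩, rfl⟩
      ⟨_, ⟨⟨z', y', u', k'⟩, ⟨-, -, ⟨d', hd', rfl⟩, hk'⟩, rfl⟩, hEq⟩
    simp only at hEq
    rw [up_one_mul_pMap54, up_one_mul_pMap54] at hEq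
    obtain ⟨w⟩ : Nonempty (InfinitePlace K) := inferInstance
    have hw := inf_coord_eq_of_pMap_eq54 hk' hk hEq w
    -- compare the norms
    have e1 : ∀ (a : Adl K) (τ : ℝ), (a * rayAdl919 K τ + tAdl54 K (θ i)).1 w
        = a.1 w * realTo919 w τ + (tAdl54 K (θ i)).1 w := fun _ _ => rfl
    have e2 : ∀ (a : Adl K) (τ : ℝ), (a * rayAdl919 K τ + tAdl54 K (θ i')).1 w
        = a.1 w * realTo919 w τ + (tAdl54 K (θ i')).1 w := fun _ _ => rfl
    rw [e2, e1] at hw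
    have hdiff : realTo919 w (θ i' - θ i)
        = d.1 w * realTo919 w (((4 : ℝ) ^ j)⁻¹) - d'.1 w * realTo919 w (((4 : ℝ) ^ j)⁻¹) := by
      rw [← tAdl54_sub]
      linear_combination hw
    have hn : ‖realTo919 w (θ i' - θ i)‖ = ‖d.1 w * realTo919 w (((4 : ℝ) ^ j)⁻¹)
        - d'.1 w * realTo919 w (((4 : ℝ) ^ j)⁻¹)‖ := by rw [hdiff]
    rw [norm_realTo919] at hn
    have hb : ‖d.1 w * realTo919 w (((4 : ℝ) ^ j)⁻¹) - d'.1 w * realTo919 w (((4 : ℝ) ^ j)⁻¹)‖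
        ≤ 2 * R * ((4 : ℝ) ^ j)⁻¹ := by
      refine le_trans (norm_sub_le _ _) ?_
      rw [norm_mul, norm_mul, norm_realTo919, abs_of_pos (inv_pos.2 h4)]
      have := hRD d hd w
      have := hRD d' hd' w
      have h4i : 0 ≤ ((4 : ℝ) ^ j)⁻¹ := inv_nonneg.2 h4.le
      nlinarith
    have hθd : θ i' - θ i = 3 * R * ((i' : ℝ) - i) * ((4 : ℝ) ^ j)⁻¹ := by
      rw [hθ]; field_simp
    have hge : 3 * R * ((4 : ℝ) ^ j)⁻¹ ≤ |θ i' - θ i| := by
      rw [hθd, abs_mul, abs_mul, abs_of_pos (inv_pos.2 h4), abs_of_pos (by positivity : 0 < 3 * R)]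
      have hi1 : (1 : ℝ) ≤ |(i' : ℝ) - i| := by
        have : (i' : ℤ) - i ≠ 0 := by
          intro h
          apply hii'
          omega
        have h1 : (1 : ℤ) ≤ |(i' : ℤ) - i| := Int.one_le_abs this
        have h2 : ((|(i' : ℤ) - i| : ℤ) : ℝ) = |(i' : ℝ) - i| := by push_cast; rfl
        rw [← h2]
        exact_mod_cast h1
      have h4i : 0 < ((4 : ℝ) ^ j)⁻¹ := inv_pos.2 h4
      calc 3 * R * ((4 : ℝ) ^ j)⁻¹ = 3 * R * 1 * ((4 : ℝ) ^ j)⁻¹ := by ring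
        _ ≤ 3 * R * |(i' : ℝ) - i| * ((4 : ℝ) ^ j)⁻¹ := by gcongr
    have h4i : 0 < ((4 : ℝ) ^ j)⁻¹ := inv_pos.2 h4
    rw [hn] at hge
    have hRi : 0 < R * ((4 : ℝ) ^ j)⁻¹ := mul_pos hR h4i
    nlinarith
  have hsum : μ (⋃ i ∈ Finset.range (4 ^ j), T i)
      = ∑ i ∈ Finset.range (4 ^ j), μ (T i) :=
    measure_biUnion_finset hTdisj (fun i _ => (hTc i).isClosed.measurableSet)
  have hle : μ (⋃ i ∈ Finset.range (4 ^ j), T i) ≤ μ Y' :=
    measure_mono (Set.iUnion₂_subset hTsub)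
  rw [hsum, Finset.sum_congr rfl (fun i _ => hTm i), Finset.sum_const, Finset.card_range,
    nsmul_eq_mul] at hle
  have h4ne : ((4 : ℝ≥0∞) ^ j) ≠ 0 := by positivity
  have h4top : ((4 : ℝ≥0∞) ^ j) ≠ ⊤ := ENNReal.pow_ne_top (by norm_num)
  have hcast : ((4 ^ j : ℕ) : ℝ≥0∞) = (4 : ℝ≥0∞) ^ j := by push_cast; rfl
  rw [hcast] at hle
  calc μ (piece54 Zc Yc D j)
      = ((4 : ℝ≥0∞) ^ j)⁻¹ * ((4 : ℝ≥0∞) ^ j * μ (piece54 Zc Yc D j)) := by
        rw [← mul_assoc, ENNReal.inv_mul_cancel h4ne h4top, one_mul]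
    _ ≤ ((4 : ℝ≥0∞) ^ j)⁻¹ * μ Y' := by gcongr
    _ = ((4 : ℝ≥0∞)⁻¹) ^ j * μ Y' := by rw [ENNReal.inv_pow]

/-- The Siegel set is Borel of finite measure. -/
theorem siegelSet_finite54 [MeasurableSpace (G K)] [BorelSpace (G K)]
    (μ : Measure (G K)) [μ.IsHaarMeasure] [T2Space (G K)]
    (e : ℕ → G K) {Zc Yc : Set (Adl K)ˣ} {D : Set (Adl K)} (hZ : IsCompact Zc)
    (hY : IsCompact Yc) (hD : IsCompact D) :
    MeasurableSet (siegelSet54 e Zc Yc D) ∧ μ (siegelSet54 e Zc Yc D) < ⊤ := by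
  constructor
  · refine MeasurableSet.iUnion (fun j => ?_)
    exact ((isCompact_piece54 hZ hY hD j).image
      (continuous_const.mul continuous_id)).isClosed.measurableSet
  · obtain ⟨M, hM, hle⟩ := measure_piece_le54 μ hZ hY hD
    have h1 : ∀ j, μ ((fun h : G K => e j * h) '' piece54 Zc Yc D j)
        ≤ ((4 : ℝ≥0∞)⁻¹) ^ j * M := by
      intro j
      rw [Set.image_mul_left, measure_preimage_mul]
      exact hle j
    calc μ (siegelSet54 e Zc Yc D)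
        ≤ ∑' j, μ ((fun h : G K => e j * h) '' piece54 Zc Yc D j) := measure_iUnion_le _
      _ ≤ ∑' j : ℕ, ((4 : ℝ≥0∞)⁻¹) ^ j * M := ENNReal.tsum_le_tsum h1
      _ = (1 - (4 : ℝ≥0∞)⁻¹)⁻¹ * M := by rw [ENNReal.tsum_mul_right, ENNReal.tsum_geometric]
      _ < ⊤ := by
        refine ENNReal.mul_lt_top ?_ hM
        rw [ENNReal.inv_lt_top, tsub_pos_iff_lt]
        exact ENNReal.inv_lt_one.2 (by norm_num)

end Fermat.Agent.LT.T1.H54

end
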