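import Mathlib
import Fermat.Agent.LT.T1.H54.SVMeasure
import Fermat.Agent.LT.T1.H793.SiegelSep

/-!
# Row LT, tower T1, leaf T1.17 (helper54): the fine form of the Siegel set in the slab

OFF-MAIN.  Every `g` in the slab of height `≥ c` is `B(K)`-equivalent to an element of
`siegelSet54 (eJ54 K) Zc Yc D` for compact sets `Zc, Yc ⊂ 𝔸ˣ`, `D ⊂ 𝔸` depending only on `c`.
All real parameters are handled in the logarithmic scale (`rayE54 τ` = ray of `exp τ`).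
-/

set_option autoImplicit false

open IsDedekindDomain NumberField MeasureTheory
open scoped MatrixGroups ENNReal

noncomputable section

namespace Fermat.Agent.LT.T1.H54

open Fermat.Agent.LT.H556.A0 Fermat.Agent.LT.T1 Fermat.Agent.LT.T1.H793 Fermat.Agent.LT.T1.H919

variable {K : Type} [Field K] [NumberField K]

/-! ## The ray in the logarithmic scale -/

/-- `exp τ` as a unit of `ℝ`. -/
def expU54 (τ : ℝ) : ℝˣ := Units.mk0 (Real.exp τ) (Real.exp_ne_zero τ)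

lemma expU54_add (τ τ' : ℝ) : expU54 (τ + τ') = expU54 τ * expU54 τ' := by
  apply Units.ext
  simp [expU54, Real.exp_add]

/-- The ray idele of `exp τ`. -/
def rayE54 (K : Type) [Field K] [NumberField K] (τ : ℝ) : (Adl K)ˣ :=
  Units.map (rayAdl919 K) (expU54 τ)

lemma rayE54_add (τ τ' : ℝ) : rayE54 K (τ + τ') = rayE54 K τ * rayE54 K τ' := by
  unfold rayE54
  rw [expU54_add, map_mul]

lemma rayE54_val (τ : ℝ) : ((rayE54 K τ : (Adl K)ˣ) : Adl K) = rayAdl919 K (Real.exp τ) := rfl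

lemma rayE54_zero : rayE54 K 0 = 1 := by
  apply Units.ext
  rw [rayE54_val, Real.exp_zero, map_one, Units.val_one]

lemma rayE54_neg (τ : ℝ) : rayE54 K (-τ) = (rayE54 K τ)⁻¹ := by
  rw [eq_inv_iff_mul_eq_one, ← rayE54_add, neg_add_cancel, rayE54_zero]

lemma continuous_rayE54 : Continuous (rayE54 K) := by
  rw [Units.continuous_iff]
  constructor
  · exact continuous_rayAdl919.comp Real.continuous_exp
  · have : (fun τ : ℝ => (((rayE54 K τ)⁻¹ : (Adl K)ˣ) : Adl K))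
        = fun τ : ℝ => rayAdl919 K (Real.exp (-τ)) := by
      funext τ
      rw [← rayE54_neg, rayE54_val]
    rw [this]
    exact continuous_rayAdl919.comp (Real.continuous_exp.comp continuous_neg)

lemma adNorm_rayE54 (τ : ℝ) :
    adNorm K ((rayE54 K τ : (Adl K)ˣ) : Adl K) = Real.exp (Module.finrank ℚ K * τ) := by
  rw [rayE54_val, adNorm_rayAdl919, abs_of_pos (Real.exp_pos τ), ← Real.exp_nat_mul]

/-- The balanced ray element `e_j = diag(2^j, 2^{-j})`. -/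
def eJ54 (K : Type) [Field K] [NumberField K] (j : ℕ) : G K :=
  scalarG919 (rayE54 K (-((j : ℝ) * Real.log 2))) * up919 (rayE54 K ((j : ℝ) * Real.log 4)) 0

lemma scalarG54_mul (a b : (Adl K)ˣ) :
    (scalarG919 a : G K) * scalarG919 b = scalarG919 (a * b) := by
  unfold scalarG919
  rw [map_mul]

lemma log_four54 : Real.log 4 = 2 * Real.log 2 := by
  have : (4 : ℝ) = 2 ^ 2 := by norm_num
  rw [this, Real.log_pow]
  norm_num

lemma rayAdl_four_pow54 (j : ℕ) :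
    ((rayE54 K ((j : ℝ) * Real.log 4) : (Adl K)ˣ) : Adl K) * rayAdl919 K (((4 : ℝ) ^ j)⁻¹) = 1 := by
  rw [rayE54_val, ← map_mul]
  have : Real.exp ((j : ℝ) * Real.log 4) = (4 : ℝ) ^ j := by
    rw [Real.exp_nat_mul, Real.exp_log (by norm_num)]
  rw [this, mul_inv_cancel₀ (by positivity), map_one]

/-- Product of three elements `scalar · up`. -/
lemma scalar_up_triple54 {R : Type*} [CommRing R] (s₁ s₂ s₃ y₁ y₂ y₃ : Rˣ) (A u : R) :
    scalarG919 s₁ * up919 y₁ A * (scalarG919 s₂ * up919 y₂ 0) * (scalarG919 s₃ * up919 y₃ u)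
      = scalarG919 (s₁ * (s₂ * s₃)) *
          up919 (y₁ * (y₂ * y₃)) ((y₁ : R) * ((y₂ : R) * u + 0) + A) := by
  have sw : ∀ (y : Rˣ) (a : R) (s : Rˣ) (g : GL (Fin 2) R),
      up919 y a * (scalarG919 s * g) = scalarG919 s * (up919 y a * g) := by
    intro y a s g
    rw [← mul_assoc, ← scalarG919_comm, mul_assoc]
  have sm : ∀ a b : Rˣ, (scalarG919 a : GL (Fin 2) R) * scalarG919 b = scalarG919 (a * b) := by
    intro a b
    unfold scalarG919
    rw [map_mul]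
  simp only [mul_assoc, sw]
  rw [up919_mul, up919_mul, ← mul_assoc (scalarG919 s₂), sm, ← mul_assoc (scalarG919 s₁), sm]

/-- The algebraic identity behind the fine form. -/
lemma fine_identity54 (a1 a2 c₁ c₂ : (Adl K)ˣ) (ξ ξ₂ : Kˣ) (x' d : Adl K) (η : K)
    (τs τρ : ℝ) (j : ℕ)
    (h1 : ratUnit K ξ * rayE54 K τs * c₁ = a1 * a2⁻¹)
    (h2 : ratUnit K ξ₂ * rayE54 K τρ * c₂ = a2)
    (h3 : algebraMap K (Adl K) (ξ : K) * d + algebraMap K (Adl K) ((ξ : K) * η) = x') :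
    ratG K (scalarG919 ξ₂ * up919 ξ ((ξ : K) * η)) * eJ54 K j *
        (scalarG919 (rayE54 K (τρ + (j : ℝ) * Real.log 2) * c₂) *
          up919 (rayE54 K (τs - (j : ℝ) * Real.log 4) * c₁)
            (d * rayAdl919 K (((4 : ℝ) ^ j)⁻¹)))
      = scalarG919 a2 * up919 (a1 * a2⁻¹) x' := by
  have e0 : ratG K (scalarG919 ξ₂ * up919 ξ ((ξ : K) * η))
      = scalarG919 (ratUnit K ξ₂) * up919 (ratUnit K ξ) (algebraMap K (Adl K) ((ξ : K) * η)) := by
    rw [map_mul]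
    congr 1
    · apply Units.ext
      ext i j
      fin_cases i <;> fin_cases j <;>
        simp [ratG, ratUnit, Matrix.GeneralLinearGroup.map, scalarG919, Matrix.scalar]
    · exact map_up919 (algebraMap K (Adl K)) ξ ((ξ : K) * η)
  rw [e0]
  unfold eJ54
  rw [scalar_up_triple54]
  have hi : ratUnit K ξ₂ * (rayE54 K (-((j : ℝ) * Real.log 2)) *
      (rayE54 K (τρ + (j : ℝ) * Real.log 2) * c₂)) = a2 := by
    rw [← mul_assoc (rayE54 K _), ← rayE54_add, ← mul_assoc]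
    have : -((j : ℝ) * Real.log 2) + (τρ + (j : ℝ) * Real.log 2) = τρ := by ring
    rw [this, h2]
  have hii : ratUnit K ξ * (rayE54 K ((j : ℝ) * Real.log 4) *
      (rayE54 K (τs - (j : ℝ) * Real.log 4) * c₁)) = a1 * a2⁻¹ := by
    rw [← mul_assoc (rayE54 K _), ← rayE54_add, ← mul_assoc]
    have : (j : ℝ) * Real.log 4 + (τs - (j : ℝ) * Real.log 4) = τs := by ring
    rw [this, h1]
  have hiii : ((ratUnit K ξ : (Adl K)ˣ) : Adl K) *
      (((rayE54 K ((j : ℝ) * Real.log 4) : (Adl K)ˣ) : Adl K) *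
        (d * rayAdl919 K (((4 : ℝ) ^ j)⁻¹)) + 0)
      + algebraMap K (Adl K) ((ξ : K) * η) = x' := by
    have hr := rayAdl_four_pow54 (K := K) j
    have hξ : ((ratUnit K ξ : (Adl K)ˣ) : Adl K) = algebraMap K (Adl K) (ξ : K) := rfl
    rw [hξ, ← h3]
    linear_combination (algebraMap K (Adl K) (ξ : K) * d) * hr
  rw [hi, hii, hiii]

lemma adNorm_inv54 (hN : AdNormC K) (x : (Adl K)ˣ) :
    adNorm K ((x⁻¹ : (Adl K)ˣ) : Adl K) = (adNorm K (x : Adl K))⁻¹ := by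
  have h := hN.2.1 x x⁻¹
  have h1 : adNorm K (1 : Adl K) = 1 := by
    have h := hN.2.2.1 1
    rwa [map_one, Units.val_one] at h
  rw [mul_inv_cancel, Units.val_one, h1] at h
  exact eq_inv_of_mul_eq_one_right h.symm

lemma comm_cancel54 {M : Type*} [CommGroup M] (a r x : M) :
    a * r * (a⁻¹ * (x * r⁻¹)) = x := by
  calc a * r * (a⁻¹ * (x * r⁻¹)) = (a * a⁻¹) * (r * r⁻¹) * x := by
        simp only [mul_comm, mul_left_comm, mul_assoc]
    _ = x := by rw [mul_inv_cancel, mul_inv_cancel, one_mul, one_mul]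

lemma isCompact_rayBox54 {C : Set (Adl K)ˣ} (hC : IsCompact C) (a b : ℝ) :
    IsCompact ((fun p : ℝ × (Adl K)ˣ => rayE54 K p.1 * p.2) '' (Set.Icc a b ×ˢ C)) :=
  (isCompact_Icc.prod hC).image ((continuous_rayE54.comp continuous_fst).mul continuous_snd)

/-- **The fine form of the Siegel set in the slab.** -/
theorem fine54 (hAL : AdeleLatticeC K) (hN : AdNormC K) (hFu : FujisakiC K) (c : ℝ)
    (hc : 0 < c) :
    ∃ (Zc Yc : Set (Adl K)ˣ) (D : Set (Adl K)), IsCompact Zc ∧ IsCompact Yc ∧ IsCompact D ∧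
      ∀ g ∈ slab K, ∀ t : ℝ, HasHeight K g t → c ≤ t →
        ∃ β : GL (Fin 2) K, IsUpperRat K β ∧
          ratG K β * g ∈ siegelSet54 (eJ54 K) Zc Yc D := by
  obtain ⟨-, -, D, hD, hDcov⟩ := hAL
  obtain ⟨C, hC, hCcov⟩ := hFu
  have hn0 : Module.finrank ℚ K ≠ 0 := (Module.finrank_pos (R := ℚ) (M := K)).ne'
  set n : ℕ := Module.finrank ℚ K with hn
  have hnpos : (0 : ℝ) < n := by exact_mod_cast Nat.pos_of_ne_zero hn0
  have hn1 : (1 : ℝ) ≤ n := by exact_mod_cast Nat.one_le_iff_ne_zero.2 hn0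
  set τ₀ : ℝ := Real.log c / n with hτ₀
  have hL2 : 0 < Real.log 2 := Real.log_pos (by norm_num)
  have hL4 : 0 < Real.log 4 := Real.log_pos (by norm_num)
  refine ⟨(fun p : ℝ × (Adl K)ˣ => rayE54 K p.1 * p.2) ''
      (Set.Icc ((-τ₀ - Real.log 4) / 2) ((Real.log 2 - τ₀) / 2) ×ˢ C),
    (fun p : ℝ × (Adl K)ˣ => rayE54 K p.1 * p.2) '' (Set.Icc τ₀ (τ₀ + Real.log 4) ×ˢ C), D,
    isCompact_rayBox54 hC _ _, isCompact_rayBox54 hC _ _, hD, ?_⟩
  rintro g hg t ⟨b, k, hb, hk, hgb, ht⟩ hct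
  have htpos : 0 < t := lt_of_lt_of_le hc hct
  obtain ⟨⟨a1, ha1⟩, ⟨a2, ha2⟩⟩ := isUnit_diag793 hb
  -- the norms of the diagonal entries
  have hA1 : 0 < adNorm K (a1 : Adl K) := hN.1 a1
  have hA2 : 0 < adNorm K (a2 : Adl K) := hN.1 a2
  have ht' : t = adNorm K (a1 : Adl K) / adNorm K (a2 : Adl K) := by rw [ht, ← ha1, ← ha2]
  -- the slab
  have hdet : adNorm K (Matrix.det (g : Matrix (Fin 2) (Fin 2) (Adl K)))
      = adNorm K (a1 : Adl K) * adNorm K (a2 : Adl K) := by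
    rw [hgb, Units.val_mul, Matrix.det_mul,
      adNorm_mul793 hN (Matrix.isUnits_det_units b) (Matrix.isUnits_det_units k),
      adNorm_det_std793 hk, mul_one, det_upper793 hb, ← ha1, ← ha2,
      adNorm_mul793 hN a1.isUnit a2.isUnit]
  obtain ⟨hl1, hl2⟩ := hg
  rw [hdet] at hl1 hl2
  -- logarithms
  set τs : ℝ := Real.log t / n with hτs
  set τρ : ℝ := Real.log (adNorm K (a2 : Adl K)) / n with hτρ
  have hnτs : (n : ℝ) * τs = Real.log t := by rw [hτs]; field_simp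
  have hnτρ : (n : ℝ) * τρ = Real.log (adNorm K (a2 : Adl K)) := by rw [hτρ]; field_simp
  have hsum : (n : ℝ) * (2 * τρ + τs)
      = Real.log (adNorm K (a1 : Adl K) * adNorm K (a2 : Adl K)) := by
    have e1 : Real.log t = Real.log (adNorm K (a1 : Adl K)) - Real.log (adNorm K (a2 : Adl K)) := by
      rw [ht', Real.log_div hA1.ne' hA2.ne']
    rw [Real.log_mul hA1.ne' hA2.ne']
    linear_combination 2 * hnτρ + hnτs + e1
  have hlog0 : 0 ≤ Real.log (adNorm K (a1 : Adl K) * adNorm K (a2 : Adl K)) :=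
    Real.log_nonneg hl1
  have hlog2 : Real.log (adNorm K (a1 : Adl K) * adNorm K (a2 : Adl K)) ≤ Real.log 2 :=
    Real.log_le_log (mul_pos hA1 hA2) hl2.le
  have hx0 : 0 ≤ 2 * τρ + τs := by
    by_contra h
    have h := not_le.1 h
    have := mul_neg_of_pos_of_neg hnpos h
    linarith
  have hx2 : 2 * τρ + τs ≤ Real.log 2 := by
    have : 2 * τρ + τs ≤ (n : ℝ) * (2 * τρ + τs) := by nlinarith
    linarith
  have hτ₀s : τ₀ ≤ τs := by
    rw [hτ₀, hτs]
    exact div_le_div_of_nonneg_right (Real.log_le_log hc hct) hnpos.le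
  -- the dyadic index
  set j : ℕ := ⌊(τs - τ₀) / Real.log 4⌋₊ with hj
  have hj1 : (j : ℝ) * Real.log 4 ≤ τs - τ₀ := by
    have := Nat.floor_le (div_nonneg (sub_nonneg.2 hτ₀s) hL4.le)
    rwa [le_div_iff₀ hL4] at this
  have hj2 : τs - τ₀ < ((j : ℝ) + 1) * Real.log 4 := by
    have := Nat.lt_floor_add_one ((τs - τ₀) / Real.log 4)
    rwa [div_lt_iff₀ hL4] at this
  -- Fujisaki, twice
  have hns : adNorm K ((rayE54 K τs : (Adl K)ˣ) : Adl K) = t := by
    rw [adNorm_rayE54, hnτs, Real.exp_log htpos]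
  have hnρ : adNorm K ((rayE54 K τρ : (Adl K)ˣ) : Adl K) = adNorm K (a2 : Adl K) := by
    rw [adNorm_rayE54, hnτρ, Real.exp_log hA2]
  have h1 : adNorm K ((a1 * a2⁻¹ * (rayE54 K τs)⁻¹ : (Adl K)ˣ) : Adl K) = 1 := by
    rw [hN.2.1, hN.2.1, adNorm_inv54 hN, adNorm_inv54 hN, hns, ht']
    field_simp
  obtain ⟨ξ, hξ⟩ := hCcov _ h1
  have h2 : adNorm K ((a2 * (rayE54 K τρ)⁻¹ : (Adl K)ˣ) : Adl K) = 1 := by
    rw [hN.2.1, adNorm_inv54 hN, hnρ]
    field_simp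
  obtain ⟨ξ₂, hξ₂⟩ := hCcov _ h2
  set c₁ : (Adl K)ˣ := (ratUnit K ξ)⁻¹ * (a1 * a2⁻¹ * (rayE54 K τs)⁻¹) with hc₁
  set c₂ : (Adl K)ˣ := (ratUnit K ξ₂)⁻¹ * (a2 * (rayE54 K τρ)⁻¹) with hc₂
  -- the lattice
  set x' : Adl K := (b : Matrix (Fin 2) (Fin 2) (Adl K)) 0 1 * ((a2⁻¹ : (Adl K)ˣ) : Adl K)
    with hx'
  set u₀ : Adl K := (((ratUnit K ξ)⁻¹ : (Adl K)ˣ) : Adl K) * x' with hu₀
  obtain ⟨η, hη⟩ := hDcov u₀
  set d : Adl K := u₀ - algebraMap K (Adl K) η with hd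
  -- the three relations
  have r1 : ratUnit K ξ * rayE54 K τs * c₁ = a1 * a2⁻¹ := comm_cancel54 _ _ _
  have r2 : ratUnit K ξ₂ * rayE54 K τρ * c₂ = a2 := comm_cancel54 _ _ _
  have r3 : algebraMap K (Adl K) (ξ : K) * d + algebraMap K (Adl K) ((ξ : K) * η) = x' := by
    have hξξ : algebraMap K (Adl K) (ξ : K) * (((ratUnit K ξ)⁻¹ : (Adl K)ˣ) : Adl K) = 1 := by
      have hξval : ((ratUnit K ξ : (Adl K)ˣ) : Adl K) = algebraMap K (Adl K) (ξ : K) := rfl
      rw [← hξval, ← Units.val_mul, mul_inv_cancel, Units.val_one]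
    rw [hd, hu₀, map_mul]
    linear_combination x' * hξξ
  have hid := fine_identity54 a1 a2 c₁ c₂ ξ ξ₂ x' d η τs τρ j r1 r2 r3
  have hb' := upper_eq_scalar_mul_up919 b hb a1 a2 ha1 ha2
  rw [← hx'] at hb'
  refine ⟨(scalarG919 ξ₂ * up919 ξ ((ξ : K) * η))⁻¹, ?_, ?_⟩
  · show (((scalarG919 ξ₂ * up919 ξ ((ξ : K) * η))⁻¹ : GL (Fin 2) K) :
      Matrix (Fin 2) (Fin 2) K) 1 0 = 0
    have hs : (scalarG919 ξ₂ : GL (Fin 2) K)⁻¹ = scalarG919 ξ₂⁻¹ := by
      unfold scalarG919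
      exact (map_inv _ _).symm
    rw [mul_inv_rev, hs, Units.val_mul, up919_inv_val, scalarG919_val]
    simp [Matrix.mul_apply, Fin.sum_univ_two]
  · rw [siegelSet54, Set.mem_iUnion]
    refine ⟨j, pMap54 (rayE54 K (τρ + (j : ℝ) * Real.log 2) * c₂)
        (rayE54 K (τs - (j : ℝ) * Real.log 4) * c₁)
        (d * rayAdl919 K (((4 : ℝ) ^ j)⁻¹)) k, ?_, ?_⟩
    · refine ⟨(rayE54 K (τρ + (j : ℝ) * Real.log 2) * c₂,
        rayE54 K (τs - (j : ℝ) * Real.log 4) * c₁, d * rayAdl919 K (((4 : ℝ) ^ j)⁻¹), k),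
        ⟨?_, ?_, ⟨d, hη, rfl⟩, hk⟩, rfl⟩
      · have hjl : (j : ℝ) * Real.log 4 = 2 * ((j : ℝ) * Real.log 2) := by
          rw [log_four54]; ring
        refine ⟨(τρ + (j : ℝ) * Real.log 2, c₂), ⟨⟨?_, ?_⟩, hξ₂⟩, rfl⟩
        · linarith
        · linarith
      · exact ⟨(τs - (j : ℝ) * Real.log 4, c₁), ⟨⟨by linarith, by linarith⟩, hξ⟩, rfl⟩
    · simp only
      rw [map_inv, hgb, hb', ← hid]
      unfold pMap54
      group

end Fermat.Agent.LT.T1.H54

end
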