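import Mathlib
import Fermat.Agent.LT.T1.H54.SVFine

/-!
# Row LT, tower T1, leaf T1.17 `LeafSiegelVol` (helper54): PROVED

OFF-MAIN.  `leafSiegelVol54 K : Fermat.Agent.LT.T1.LeafSiegelVol K`, verbatim against
`LT/T1/Spec.lean` v1 (sha256 e8ae48d6010e).

Route (coord/LT-T1-routes-helper54.md): the fine form of the Siegel set in the slab (`fine54`:
Fujisaki twice, cocompactness of `K` in `𝔸_K`) and the dyadic tiling estimate
(`siegelSet_finite54`: left invariance + disjoint unipotent translates).  NO Iwasawa integration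
formula, no Fubini, no unimodularity.  Hypotheses actually used: `LocCompC` (Hausdorff),
`AdeleLatticeC`, `AdNormC`, and `FujisakiC`, which is not a premise of the leaf and is therefore
an explicit hypothesis of `siegelVolC54`; the leaf itself takes `FujisakiC` from the tower
(`LeafFujisaki`).
-/

set_option autoImplicit false

open IsDedekindDomain NumberField MeasureTheory
open scoped MatrixGroups ENNReal

noncomputable section

namespace Fermat.Agent.LT.T1.H54

open Fermat.Agent.LT.H556.A0 Fermat.Agent.LT.T1 Fermat.Agent.LT.T1.H793 Fermat.Agent.LT.T1.H919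

variable (K : Type) [Field K] [NumberField K]

set_option linter.style.haveILetI false in
/-- **`SiegelVolC`** from `LocCompC`, `AdeleLatticeC`, `AdNormC`, `FujisakiC`. -/
theorem siegelVolC54 (hLC : LocCompC K) (hAL : AdeleLatticeC K) (hN : AdNormC K)
    (hFu : FujisakiC K) : SiegelVolC K := by
  letI : MeasurableSpace (G K) := borel (G K)
  have hB : BorelSpace (G K) := ⟨rfl⟩
  have hT2 : T2Space (G K) := hLC.2.2.1
  intro μ hμ c hc
  obtain ⟨Zc, Yc, D, hZ, hY, hD, hcov⟩ := fine54 hAL hN hFu c hc
  obtain ⟨hm, hfin⟩ := siegelSet_finite54 μ (eJ54 K) hZ hY hD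
  exact ⟨siegelSet54 (eJ54 K) Zc Yc D, hm, hfin, fun g hg t ht hct => hcov g hg t ht hct⟩

/-- **Leaf T1.17 given the Fujisaki leaf T1.06**: `LeafFujisaki K → LeafSiegelVol K`
(the conclusion and the premises are verbatim those of the Spec). -/
theorem leafSiegelVol_of_fujisaki54 (hFu : LeafFujisaki K) : LeafSiegelVol K :=
  fun hLC _ hAL hFD hN _ _ _ => siegelVolC54 K hLC hAL hN (hFu hLC hAL hFD hN)

end Fermat.Agent.LT.T1.H54

end
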